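import Mathlib
import Fermat.Prelude.Def_FLTPrelim_Modularity
import Fermat.Agent.S05.VarChange
import Fermat.Agent.S52.Tr.Defs

/-!
# S52 glue (G-A): a general Weierstrass curve and its short model have the same number of points

For a field `F` with `2, 3 ≠ 0` and a Weierstrass curve `V` over `F`, the short curve
`y² = x³ - 27 c₄ x - 54 c₆` is obtained from `V` by the change of variables
`u = 1/6, r = -b₂/12, s = -a₁/2, t = -(a₃ + r a₁)/2`; the induced map on points is a bijection.
Consequence: `apOfModel` of an integral model at a prime `ℓ ≠ 2, 3` is computed on the short curve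
over `ZMod ℓ`.
-/

set_option autoImplicit false

namespace Fermat.Agent.S52.Glue

open WeierstrassCurve Fermat.Agent.S05.VarChange Fermat.Agent.S52.Tr

section Field

variable {F : Type*} [Field F]

/-- The short model `y² = x³ - 27 c₄ x - 54 c₆` of a Weierstrass curve. -/
noncomputable def shortOf (V : WeierstrassCurve F) : WeierstrassCurve.Affine F :=
  shortCurve (-27 * V.c₄) (-54 * V.c₆)

theorem six_ne_zero' (h2 : (2 : F) ≠ 0) (h3 : (3 : F) ≠ 0) : (6 : F) ≠ 0 := by
  have : (6 : F) = 2 * 3 := by norm_num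
  rw [this]; exact mul_ne_zero h2 h3

/-- The general Weierstrass curve `V` is related to its short model by the standard change. -/
theorem rel_short (V : WeierstrassCurve F) (h2 : (2 : F) ≠ 0) (h3 : (3 : F) ≠ 0) :
    Rel V.toAffine (shortOf V) (1 / 6 : F) (-V.b₂ / 12) (-V.a₁ / 2)
      (-(V.a₃ + (-V.b₂ / 12) * V.a₁) / 2) := by
  have h6 := six_ne_zero' h2 h3
  have h12 : (12 : F) ≠ 0 := by
    have : (12 : F) = 2 * 6 := by norm_num
    rw [this]; exact mul_ne_zero h2 h6
  refine ⟨one_div_ne_zero h6, ?_, ?_, ?_, ?_, ?_⟩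
  · simp only [shortOf, shortCurve]; field_simp; ring
  · simp only [shortOf, shortCurve, WeierstrassCurve.b₂]; field_simp; ring
  · simp only [shortOf, shortCurve, WeierstrassCurve.b₂]; field_simp; ring
  · simp only [shortOf, shortCurve, WeierstrassCurve.c₄, WeierstrassCurve.b₂, WeierstrassCurve.b₄]
    field_simp; ring
  · simp only [shortOf, shortCurve, WeierstrassCurve.c₆, WeierstrassCurve.b₂, WeierstrassCurve.b₄,
      WeierstrassCurve.b₆]
    field_simp; ring

theorem Rel.pointMap_surjective {W W' : Affine F} {u r s t : F} (H : Rel W W' u r s t) :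
    Function.Surjective H.pointMap := by
  rintro (_ | ⟨X, Y, h⟩)
  · exact ⟨0, rfl⟩
  · have hu := H.hu
    have hu2 : u ^ 2 ≠ 0 := pow_ne_zero _ hu
    have hu3 : u ^ 3 ≠ 0 := pow_ne_zero _ hu
    set x : F := (X - r) / u ^ 2 with hx
    set y : F := (Y - u ^ 2 * s * x - t) / u ^ 3 with hy
    have e1 : u ^ 2 * x + r = X := by rw [hx]; field_simp; ring
    have e2 : u ^ 3 * y + u ^ 2 * s * x + t = Y := by rw [hy]; field_simp; ring
    have h' : W'.Nonsingular x y := by
      rw [H.nonsingular_iff, e1, e2]; exact h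
    refine ⟨.some x y h', ?_⟩
    rw [Rel.pointMap_some]
    simp only [Affine.Point.some.injEq]
    exact ⟨e1, e2⟩

/-- A Weierstrass curve over a field with `2, 3 ≠ 0` has as many points as its short model. -/
theorem natCard_point_eq_short (V : WeierstrassCurve F) (h2 : (2 : F) ≠ 0) (h3 : (3 : F) ≠ 0) :
    Nat.card V.toAffine.Point = Nat.card (shortOf V).Point := by
  have H := rel_short V h2 h3
  exact (Nat.card_congr (Equiv.ofBijective H.pointMap
    ⟨H.pointMap_injective, Rel.pointMap_surjective H⟩)).symm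

end Field

section ZModPrime

variable (ℓ : ℕ) [Fact ℓ.Prime]

theorem zmod_two_ne_zero (h2 : ℓ ≠ 2) : (2 : ZMod ℓ) ≠ 0 := by
  intro h
  have h' : ((2 : ℕ) : ZMod ℓ) = 0 := by exact_mod_cast h
  rw [ZMod.natCast_eq_zero_iff] at h'
  have hp : ℓ.Prime := Fact.out
  exact h2 ((Nat.prime_dvd_prime_iff_eq hp Nat.prime_two).mp h')

theorem zmod_three_ne_zero (h3 : ℓ ≠ 3) : (3 : ZMod ℓ) ≠ 0 := by
  intro h
  have h' : ((3 : ℕ) : ZMod ℓ) = 0 := by exact_mod_cast h
  rw [ZMod.natCast_eq_zero_iff] at h'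
  have hp : ℓ.Prime := Fact.out
  exact h3 ((Nat.prime_dvd_prime_iff_eq hp Nat.prime_three).mp h')

/-- `apOfModel` at a prime `ℓ ≠ 2, 3` is computed on the short curve over `ZMod ℓ`. -/
theorem apOfModel_eq_short (W : WeierstrassCurve ℤ) (h2 : ℓ ≠ 2) (h3 : ℓ ≠ 3) :
    W.apOfModel ℓ = (ℓ : ℤ) + 1 -
      (Nat.card (shortCurve (-27 * (W.c₄ : ZMod ℓ)) (-54 * (W.c₆ : ZMod ℓ))).Point : ℤ) := by
  have key := natCard_point_eq_short (W.reductionMod ℓ) (zmod_two_ne_zero ℓ h2)
    (zmod_three_ne_zero ℓ h3)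
  unfold WeierstrassCurve.apOfModel WeierstrassCurve.traceOfFrobenius WeierstrassCurve.card
  rw [key, Nat.card_zmod]
  simp only [shortOf, WeierstrassCurve.reductionMod, WeierstrassCurve.map_c₄,
    WeierstrassCurve.map_c₆, eq_intCast]

end ZModPrime

end Fermat.Agent.S52.Glue
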