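import Mathlib
import Fermat.Prelude.Def_FLTPrelim_Modularity
import Fermat.Prelude.Def_FLTPrelim_ModularRep
import Fermat.Agent.S51.Three

/-!
# S52 glue (G-B, G-C, G-D, G-F): integral models with prescribed `c₄, c₆`, congruent models,
the quartic normal form of `ψ₃`, and `c₄ c₆ ≠ 0` for semistable models
-/

set_option autoImplicit false

namespace Fermat.Agent.S52.Glue

open WeierstrassCurve

/-! ### (G-B) congruent models -/

theorem reductionMod_eq_of_dvd (W W' : WeierstrassCurve ℤ) (ℓ : ℕ)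
    (h₁ : W'.a₁ = W.a₁) (h₂ : W'.a₂ = W.a₂) (h₃ : W'.a₃ = W.a₃)
    (h₄ : (ℓ : ℤ) ∣ W'.a₄ - W.a₄) (h₆ : (ℓ : ℤ) ∣ W'.a₆ - W.a₆) :
    W'.reductionMod ℓ = W.reductionMod ℓ := by
  unfold WeierstrassCurve.reductionMod
  ext
  · simp [h₁]
  · simp [h₂]
  · simp [h₃]
  · simp only [WeierstrassCurve.map_a₄, eq_intCast]
    exact ((ZMod.intCast_eq_intCast_iff_dvd_sub _ _ _).mpr h₄).symm
  · simp only [WeierstrassCurve.map_a₆, eq_intCast]
    exact ((ZMod.intCast_eq_intCast_iff_dvd_sub _ _ _).mpr h₆).symm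

theorem apOfModel_eq_of_reductionMod_eq (W W' : WeierstrassCurve ℤ) (ℓ : ℕ)
    (h : W'.reductionMod ℓ = W.reductionMod ℓ) : W'.apOfModel ℓ = W.apOfModel ℓ := by
  unfold WeierstrassCurve.apOfModel
  rw [h]

theorem dvd_Δ_iff_of_reductionMod_eq (W W' : WeierstrassCurve ℤ) (ℓ : ℕ)
    (h : W'.reductionMod ℓ = W.reductionMod ℓ) : (ℓ : ℤ) ∣ W'.Δ ↔ (ℓ : ℤ) ∣ W.Δ := by
  have e : (W'.reductionMod ℓ).Δ = (W.reductionMod ℓ).Δ := by rw [h]
  simp only [WeierstrassCurve.reductionMod, WeierstrassCurve.map_Δ, eq_intCast] at e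
  rw [← ZMod.intCast_zmod_eq_zero_iff_dvd, ← ZMod.intCast_zmod_eq_zero_iff_dvd, e]

theorem dvd_c₄_iff_of_reductionMod_eq (W W' : WeierstrassCurve ℤ) (ℓ : ℕ)
    (h : W'.reductionMod ℓ = W.reductionMod ℓ) : (ℓ : ℤ) ∣ W'.c₄ ↔ (ℓ : ℤ) ∣ W.c₄ := by
  have e : (W'.reductionMod ℓ).c₄ = (W.reductionMod ℓ).c₄ := by rw [h]
  simp only [WeierstrassCurve.reductionMod, WeierstrassCurve.map_c₄, eq_intCast] at e
  rw [← ZMod.intCast_zmod_eq_zero_iff_dvd, ← ZMod.intCast_zmod_eq_zero_iff_dvd, e]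

/-! ### (G-C) the integral model -/

/-- Perturb `a₄, a₆` of an integral model. -/
def perturb (W : WeierstrassCurve ℤ) (d₄ d₆ : ℤ) : WeierstrassCurve ℤ :=
  ⟨W.a₁, W.a₂, W.a₃, W.a₄ + d₄, W.a₆ + d₆⟩

theorem perturb_c₄ (W : WeierstrassCurve ℤ) (d₄ d₆ : ℤ) :
    (perturb W d₄ d₆).c₄ = W.c₄ - 48 * d₄ := by
  simp only [perturb, WeierstrassCurve.c₄, WeierstrassCurve.b₂, WeierstrassCurve.b₄]
  ring

theorem perturb_c₆ (W : WeierstrassCurve ℤ) (d₄ d₆ : ℤ) :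
    (perturb W d₄ d₆).c₆ = W.c₆ + 72 * W.b₂ * d₄ - 864 * d₆ := by
  simp only [perturb, WeierstrassCurve.c₆, WeierstrassCurve.b₂, WeierstrassCurve.b₄,
    WeierstrassCurve.b₆]
  ring

/-- If `c4' ≡ c₄(W)` and `c6' ≡ c₆(W)` modulo `41472 * M`, there is an integral model `W'` with
`c₄(W') = c4'`, `c₆(W') = c6'` which agrees with `W` coefficientwise modulo `M`. -/
theorem exists_model (W : WeierstrassCurve ℤ) (M c4' c6' : ℤ)
    (h4 : 41472 * M ∣ c4' - W.c₄) (h6 : 41472 * M ∣ c6' - W.c₆) :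
    ∃ W' : WeierstrassCurve ℤ, W'.c₄ = c4' ∧ W'.c₆ = c6' ∧ W'.a₁ = W.a₁ ∧ W'.a₂ = W.a₂ ∧
      W'.a₃ = W.a₃ ∧ M ∣ W'.a₄ - W.a₄ ∧ M ∣ W'.a₆ - W.a₆ := by
  obtain ⟨e₄, he₄⟩ := h4
  obtain ⟨e₆, he₆⟩ := h6
  refine ⟨perturb W (-864 * M * e₄) (-48 * M * e₆ - 72 * W.b₂ * M * e₄), ?_, ?_, rfl, rfl, rfl,
    ?_, ?_⟩
  · rw [perturb_c₄]; linarith
  · rw [perturb_c₆]; linarith
  · refine ⟨-864 * e₄, ?_⟩
    simp only [perturb]; ring
  · refine ⟨-48 * e₆ - 72 * W.b₂ * e₄, ?_⟩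
    simp only [perturb]; ring

/-! ### (G-D) the quartic normal form of `ψ₃` -/

/-- `Z⁴ - 6 c₄ Z² - 8 c₆ Z - 3 c₄²`: the `3`-division polynomial in the variable `Z = 12 x + b₂`. -/
def quartic {R : Type*} [CommRing R] (c4 c6 Z : R) : R :=
  Z ^ 4 - 6 * c4 * Z ^ 2 - 8 * c6 * Z - 3 * c4 ^ 2

theorem psi3_quartic {R : Type*} [CommRing R] (V : WeierstrassCurve R) (x : R) :
    6912 * (3 * x ^ 4 + V.b₂ * x ^ 3 + 3 * V.b₄ * x ^ 2 + 3 * V.b₆ * x + V.b₈) =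
      quartic V.c₄ V.c₆ (12 * x + V.b₂) := by
  simp only [quartic, WeierstrassCurve.c₄, WeierstrassCurve.c₆, WeierstrassCurve.b₈,
    WeierstrassCurve.b₆, WeierstrassCurve.b₄, WeierstrassCurve.b₂]
  ring

/-- the quartic, as a monic integer polynomial -/
noncomputable def quarticPoly (c4 c6 : ℤ) : Polynomial ℤ :=
  Polynomial.X ^ 4 - Polynomial.C (6 * c4) * Polynomial.X ^ 2 - Polynomial.C (8 * c6) * Polynomial.X
    - Polynomial.C (3 * c4 ^ 2)

theorem quarticPoly_monic (c4 c6 : ℤ) : (quarticPoly c4 c6).Monic := by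
  unfold quarticPoly
  monicity!

theorem quarticPoly_aeval (c4 c6 : ℤ) (Z : ℚ) :
    Polynomial.aeval Z (quarticPoly c4 c6) = quartic (c4 : ℚ) (c6 : ℚ) Z := by
  simp [quarticPoly, quartic, map_ofNat]

/-- A rational root of the quartic (integer `c₄, c₆`) is an integer. -/
theorem quartic_int_root_of_rat_root (c4 c6 : ℤ) (Z : ℚ) (h : quartic (c4 : ℚ) (c6 : ℚ) Z = 0) :
    ∃ z : ℤ, quartic c4 c6 z = 0 := by
  have hr : Polynomial.aeval Z (quarticPoly c4 c6) = 0 := by rw [quarticPoly_aeval]; exact h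
  obtain ⟨z, hz⟩ := isInteger_of_is_root_of_monic (quarticPoly_monic c4 c6) hr
  refine ⟨z, ?_⟩
  have hz' : (z : ℚ) = Z := by simpa using hz
  have : ((quartic c4 c6 z : ℤ) : ℚ) = 0 := by
    rw [← h, ← hz']
    simp only [quartic]
    push_cast
    ring
  exact_mod_cast this

/-- Hard case: if the mod-`3` representation of `W` is reducible, the quartic has an integer root. -/
theorem exists_int_root_of_not_irreducible (W : WeierstrassCurve ℤ) (hΔ : W.Δ ≠ 0)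
    (h : ¬ W.ModRepIsIrreducible 3) : ∃ z : ℤ, quartic W.c₄ W.c₆ z = 0 := by
  have hΔ' : (W.map (Int.castRingHom ℚ)).Δ ≠ 0 := by
    rw [WeierstrassCurve.map_Δ]
    simpa using hΔ
  obtain ⟨x₀, hx₀⟩ := Fermat.Agent.S51.Three.three_structure (W.map (Int.castRingHom ℚ)) hΔ' h
  have key := psi3_quartic (W.map (Int.castRingHom ℚ)) x₀
  rw [hx₀, mul_zero] at key
  apply quartic_int_root_of_rat_root W.c₄ W.c₆ (12 * x₀ + (W.map (Int.castRingHom ℚ)).b₂)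
  have key' := key.symm
  simp only [WeierstrassCurve.map_c₄, WeierstrassCurve.map_c₆, eq_intCast] at key'
  exact key'

/-- If the quartic of `W'` has no integer root, the mod-`3` representation of `W'` is
irreducible. -/
theorem irreducible_three_of_no_int_root (W' : WeierstrassCurve ℤ) (hΔ : W'.Δ ≠ 0)
    (h : ∀ z : ℤ, quartic W'.c₄ W'.c₆ z ≠ 0) : W'.ModRepIsIrreducible 3 := by
  by_contra hirr
  obtain ⟨z, hz⟩ := exists_int_root_of_not_irreducible W' hΔ hirr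
  exact h z hz

/-- If `c₄³ = c₆²` then the quartic has an integer root. -/
theorem quartic_int_root_of_disc_zero (c4 c6 : ℤ) (h : c4 ^ 3 = c6 ^ 2) :
    ∃ z : ℤ, quartic c4 c6 z = 0 := by
  by_cases hc : c4 = 0
  · subst hc
    have h6 : c6 = 0 := by
      have : c6 ^ 2 = 0 := by rw [← h]; ring
      exact pow_eq_zero_iff (by norm_num) |>.mp this
    exact ⟨0, by simp [quartic, h6]⟩
  · -- `c4 ∣ c6`: from `c6² = c4³`
    have hdvd : c4 ∣ c6 := by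
      have h2 : c4 ^ 2 ∣ c6 ^ 2 := ⟨c4, by rw [← h]; ring⟩
      exact (Int.pow_dvd_pow_iff (by norm_num)).mp h2
    obtain ⟨s, rfl⟩ := hdvd
    have hs : c4 = s ^ 2 := by
      have : c4 ^ 2 * c4 = c4 ^ 2 * s ^ 2 := by rw [← pow_succ, h]; ring
      exact mul_left_cancel₀ (pow_ne_zero 2 hc) this
    refine ⟨3 * s, ?_⟩
    simp only [quartic]
    rw [hs]; ring

/-! ### (G-F) `c₄ c₆ ≠ 0` for semistable models -/

theorem c₄_mod_eight (W : WeierstrassCurve ℤ) : W.c₄ % 8 = 0 ∨ W.c₄ % 8 = 1 := by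
  have e : W.c₄ = W.a₁ ^ 4 + 8 * (W.a₁ ^ 2 * W.a₂ + 2 * W.a₂ ^ 2 - 3 * (2 * W.a₄ + W.a₁ * W.a₃)) := by
    simp only [WeierstrassCurve.c₄, WeierstrassCurve.b₂, WeierstrassCurve.b₄]; ring
  rw [e, Int.add_mul_emod_self_left]
  rcases Int.emod_two_eq_zero_or_one W.a₁ with h | h
  · left
    obtain ⟨m, hm⟩ := Int.dvd_of_emod_eq_zero h
    rw [hm]
    have : (2 * m) ^ 4 = 8 * (2 * m ^ 4) := by ring
    rw [this, Int.mul_emod_right]
  · right
    have hm : W.a₁ = 2 * (W.a₁ / 2) + 1 := by omega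
    rw [hm]
    generalize W.a₁ / 2 = m
    have : (2 * m + 1) ^ 4 = 8 * (2 * m ^ 4 + 4 * m ^ 3 + 3 * m ^ 2 + m) + 1 := by ring
    rw [this, Int.add_comm, Int.add_mul_emod_self_left]
    rfl

theorem exists_prime_dvd_of_natAbs_ne_one (n : ℤ) (h : n.natAbs ≠ 1) :
    ∃ p : ℕ, p.Prime ∧ (p : ℤ) ∣ n := by
  obtain ⟨p, hp, hpd⟩ := Nat.exists_prime_and_dvd h
  exact ⟨p, hp, Int.natCast_dvd.mpr hpd⟩

theorem Δ_natAbs_of_semistable_of_c₄_dvd (W : WeierstrassCurve ℤ) (hW : W.IsSemistableModel)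
    (h : ∀ p : ℕ, p.Prime → (p : ℤ) ∣ W.Δ → (p : ℤ) ∣ W.c₄) : W.Δ.natAbs = 1 := by
  by_contra hne
  obtain ⟨p, hp, hpd⟩ := exists_prime_dvd_of_natAbs_ne_one W.Δ hne
  exact hW p hp hpd (h p hp hpd)

theorem c₄_ne_zero_of_semistable (W : WeierstrassCurve ℤ) (hW : W.IsSemistableModel) :
    W.c₄ ≠ 0 := by
  intro h0
  have h1 := Δ_natAbs_of_semistable_of_c₄_dvd W hW (fun p _ _ => by rw [h0]; exact dvd_zero _)
  have hrel := W.c_relation
  rw [h0] at hrel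
  rcases Int.natAbs_eq W.Δ with hΔ | hΔ <;> rw [h1] at hΔ <;> rw [hΔ] at hrel
  · have h6 : W.c₆ ^ 2 = -1728 := by push_cast at hrel; linarith
    nlinarith [sq_nonneg W.c₆]
  · have h6 : W.c₆ ^ 2 = 1728 := by push_cast at hrel; linarith
    have hle : W.c₆.natAbs ^ 2 = 1728 := by
      have := congrArg Int.natAbs h6
      rw [Int.natAbs_pow] at this
      simpa using this
    have h1 : W.c₆.natAbs < 42 := by
      by_contra hge
      have : 42 ^ 2 ≤ W.c₆.natAbs ^ 2 := Nat.pow_le_pow_left (not_lt.mp hge) 2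
      omega
    have h2 : 41 < W.c₆.natAbs := by
      by_contra hle'
      have : W.c₆.natAbs ^ 2 ≤ 41 ^ 2 := Nat.pow_le_pow_left (not_lt.mp hle') 2
      omega
    omega

theorem c₆_ne_zero_of_semistable (W : WeierstrassCurve ℤ) (hW : W.IsSemistableModel) :
    W.c₆ ≠ 0 := by
  intro h0
  have hrel := W.c_relation
  rw [h0] at hrel
  have h1 := Δ_natAbs_of_semistable_of_c₄_dvd W hW (fun p hp hpd => by
    have hp' : Prime (p : ℤ) := Nat.prime_iff_prime_int.mp hp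
    have : (p : ℤ) ∣ W.c₄ ^ 3 := ⟨1728 * (W.Δ / p), by
      obtain ⟨e, he⟩ := hpd
      rw [he, Int.mul_ediv_cancel_left _ hp'.ne_zero]; linarith⟩
    exact hp'.dvd_of_dvd_pow this)
  have h8 := c₄_mod_eight W
  -- `c₄³ = ± 1728`, so `c₄ = ± 12`, contradicting `c₄ ≡ 0, 1 mod 8`
  have hc : W.c₄ = 12 ∨ W.c₄ = -12 := by
    rcases Int.natAbs_eq W.Δ with hΔ | hΔ <;> rw [h1] at hΔ <;> rw [hΔ] at hrel
    · left
      have h3 : W.c₄ ^ 3 = 12 ^ 3 := by push_cast at hrel; linarith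
      exact (Odd.strictMono_pow (by decide : Odd 3)).injective h3
    · right
      have h3 : W.c₄ ^ 3 = (-12) ^ 3 := by push_cast at hrel; linarith
      exact (Odd.strictMono_pow (by decide : Odd 3)).injective h3
  rcases hc with hc | hc <;> rw [hc] at h8 <;> omega

end Fermat.Agent.S52.Glue
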