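import Fermat.Agent.S52.Glue.Short
import Fermat.Agent.S52.Glue.Model

/-!
# S52 glue (G-E): the final assembly, with the four bricks as explicit hypotheses

`C4h c4 c6 m n`, `C6h c4 c6 m n` are the (integer valued) invariants of the member
`v = m • v₀ + n • w(v₀)` of the `5`-congruent family through the curve with invariants `(c4, c6)`.
`FamilyBricks` lists exactly what the assembly needs from the bricks (SS), (Irr3), (Fam)+(Tr).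
-/

set_option autoImplicit false

namespace Fermat.Agent.S52.Glue

open WeierstrassCurve Fermat.Agent.S52.Tr

/-- The four bricks, for a family given by integer functions `C4h, C6h` of `(c4, c6, m, n)`. -/
structure FamilyBricks (C4h C6h : ℤ → ℤ → ℤ → ℤ → ℤ) : Prop where
  /-- the member `(k, N)` with `k ≡ 1 mod N` is congruent to the base curve modulo `N` -/
  base : ∀ c4 c6 k N : ℤ, N ∣ k - 1 → N ∣ C4h c4 c6 k N - c4 ∧ N ∣ C6h c4 c6 k N - c6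
  /-- (SS) at new primes: `c4'` and `c6'` have no common prime factor outside `30 Δ n` -/
  ss : ∀ (c4 c6 m n : ℤ) (p : ℕ), p.Prime → p ≠ 2 → p ≠ 3 → p ≠ 5 →
    ¬ (p : ℤ) ∣ c4 ^ 3 - c6 ^ 2 → ¬ (p : ℤ) ∣ n →
    (p : ℤ) ∣ C4h c4 c6 m n → (p : ℤ) ∣ C6h c4 c6 m n → False
  /-- (Irr3), Runge: if the base quartic has an integer root, then for all large `k` the quartic of
  the member `(k, N)` has no integer root -/
  irr : ∀ (c4 c6 z₀ N : ℤ), c4 ≠ 0 → c6 ≠ 0 → c4 ^ 3 - c6 ^ 2 ≠ 0 → quartic c4 c6 z₀ = 0 → 0 < N →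
    ∃ k₀ : ℤ, ∀ k : ℤ, k₀ ≤ k → ∀ z : ℤ, quartic (C4h c4 c6 k N) (C6h c4 c6 k N) z ≠ 0
  /-- (Fam)+(Tr): at a prime `ℓ ∉ {2,3,5}` good for both curves, the point counts of the two short
  curves over `ZMod ℓ` are congruent modulo `5` -/
  cong : ∀ (c4 c6 m n : ℤ) (ℓ : ℕ) [Fact ℓ.Prime], ℓ ≠ 2 → ℓ ≠ 3 → ℓ ≠ 5 →
    ¬ (ℓ : ℤ) ∣ c4 ^ 3 - c6 ^ 2 →
    ¬ (ℓ : ℤ) ∣ (C4h c4 c6 m n) ^ 3 - (C6h c4 c6 m n) ^ 2 →
    (5 : ℤ) ∣
      (Nat.card (shortCurve (-27 * ((C4h c4 c6 m n : ℤ) : ZMod ℓ))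
          (-54 * ((C6h c4 c6 m n : ℤ) : ZMod ℓ))).Point : ℤ) -
        (Nat.card (shortCurve (-27 * (c4 : ZMod ℓ)) (-54 * (c6 : ZMod ℓ))).Point : ℤ)

theorem prime_not_dvd_1728 (p : ℕ) (hp : p.Prime) (h2 : p ≠ 2) (h3 : p ≠ 3) :
    ¬ (p : ℤ) ∣ 1728 := by
  intro h
  have h' : p ∣ 1728 := by exact_mod_cast h
  have e : (1728 : ℕ) = 2 ^ 6 * 3 ^ 3 := by norm_num
  rw [e] at h'
  rcases (Nat.Prime.dvd_mul hp).mp h' with h | h
  · exact h2 ((Nat.prime_dvd_prime_iff_eq hp Nat.prime_two).mp (hp.dvd_of_dvd_pow h))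
  · exact h3 ((Nat.prime_dvd_prime_iff_eq hp Nat.prime_three).mp (hp.dvd_of_dvd_pow h))

/-- for a prime `p ∤ 1728` : `p ∣ c₄³ - c₆²` iff `p ∣ Δ` -/
theorem prime_dvd_disc_iff (W : WeierstrassCurve ℤ) (p : ℕ) (hp : p.Prime) (h2 : p ≠ 2)
    (h3 : p ≠ 3) : (p : ℤ) ∣ W.c₄ ^ 3 - W.c₆ ^ 2 ↔ (p : ℤ) ∣ W.Δ := by
  have hp' : Prime (p : ℤ) := Nat.prime_iff_prime_int.mp hp
  rw [← W.c_relation]
  constructor
  · intro h
    exact (hp'.dvd_or_dvd h).resolve_left (prime_not_dvd_1728 p hp h2 h3)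
  · intro h
    exact Dvd.dvd.mul_left h _

/-- **S52 from the bricks.** -/
theorem result_of_bricks {C4h C6h : ℤ → ℤ → ℤ → ℤ → ℤ} (B : FamilyBricks C4h C6h)
    (W : WeierstrassCurve ℤ) (hΔ : W.Δ ≠ 0) (hW : W.IsSemistableModel) :
    ∃ W' : WeierstrassCurve ℤ, W'.Δ ≠ 0 ∧ W'.IsSemistableModel ∧ W'.ModRepIsIrreducible 3 ∧
      ∀ ℓ : ℕ, ℓ.Prime → W.IsGoodPrimeFor ℓ → W'.IsGoodPrimeFor ℓ → ℓ ≠ 5 →
        (5 : ℤ) ∣ (W'.apOfModel ℓ - W.apOfModel ℓ) := by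
  by_cases h3 : W.ModRepIsIrreducible 3
  · exact ⟨W, hΔ, hW, h3, fun ℓ _ _ _ _ => by simp⟩
  obtain ⟨z₀, hz₀⟩ := exists_int_root_of_not_irreducible W hΔ h3
  have hc4 := c₄_ne_zero_of_semistable W hW
  have hc6 := c₆_ne_zero_of_semistable W hW
  have hdisc : W.c₄ ^ 3 - W.c₆ ^ 2 ≠ 0 := by
    rw [← W.c_relation]
    exact mul_ne_zero (by norm_num) hΔ
  set M : ℤ := 30 * |W.Δ| with hM
  have hMpos : 0 < M := by
    have : 0 < |W.Δ| := abs_pos.mpr hΔ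
    positivity
  set N : ℤ := 41472 * M with hN
  have hNpos : 0 < N := by positivity
  obtain ⟨k₀, hk₀⟩ := B.irr W.c₄ W.c₆ z₀ N hc4 hc6 hdisc hz₀ hNpos
  set k : ℤ := 1 + N * |k₀| with hk
  have hkk₀ : k₀ ≤ k := by
    have h1 : k₀ ≤ |k₀| := le_abs_self k₀
    have h2 : 0 ≤ |k₀| := abs_nonneg k₀
    nlinarith
  have hkN : N ∣ k - 1 := ⟨|k₀|, by rw [hk]; ring⟩
  obtain ⟨h4, h6⟩ := B.base W.c₄ W.c₆ k N hkN
  obtain ⟨W', hc4', hc6', ha1, ha2, ha3, ha4, ha6⟩ :=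
    exists_model W M (C4h W.c₄ W.c₆ k N) (C6h W.c₄ W.c₆ k N) h4 h6
  have hnoroot : ∀ z : ℤ, quartic W'.c₄ W'.c₆ z ≠ 0 := by
    rw [hc4', hc6']; exact hk₀ k hkk₀
  have hΔ' : W'.Δ ≠ 0 := by
    intro h0
    have hrel := W'.c_relation
    rw [h0, mul_zero] at hrel
    obtain ⟨z, hz⟩ := quartic_int_root_of_disc_zero W'.c₄ W'.c₆ (by linarith)
    exact hnoroot z hz
  have hred : ∀ ℓ : ℕ, (ℓ : ℤ) ∣ M → W'.reductionMod ℓ = W.reductionMod ℓ := fun ℓ hℓ =>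
    reductionMod_eq_of_dvd W W' ℓ ha1 ha2 ha3 (dvd_trans hℓ ha4) (dvd_trans hℓ ha6)
  -- facts about primes not dividing `M`
  have hprime : ∀ p : ℕ, p.Prime → ¬ (p : ℤ) ∣ M →
      p ≠ 2 ∧ p ≠ 3 ∧ p ≠ 5 ∧ ¬ (p : ℤ) ∣ W.Δ ∧ ¬ (p : ℤ) ∣ N := by
    intro p hp hpM
    have hp' : Prime (p : ℤ) := Nat.prime_iff_prime_int.mp hp
    have h2 : p ≠ 2 := by
      rintro rfl; exact hpM ⟨15 * |W.Δ|, by rw [hM]; push_cast; ring⟩
    have h3 : p ≠ 3 := by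
      rintro rfl; exact hpM ⟨10 * |W.Δ|, by rw [hM]; push_cast; ring⟩
    have h5 : p ≠ 5 := by
      rintro rfl; exact hpM ⟨6 * |W.Δ|, by rw [hM]; push_cast; ring⟩
    have hΔp : ¬ (p : ℤ) ∣ W.Δ := by
      intro h
      exact hpM (Dvd.dvd.mul_left ((dvd_abs _ _).mpr h) _)
    refine ⟨h2, h3, h5, hΔp, ?_⟩
    intro h
    rcases hp'.dvd_or_dvd h with h | h
    · have h' : p ∣ 41472 := by exact_mod_cast h
      have e : (41472 : ℕ) = 2 ^ 9 * 3 ^ 4 := by norm_num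
      rw [e] at h'
      rcases (Nat.Prime.dvd_mul hp).mp h' with h | h
      · exact h2 ((Nat.prime_dvd_prime_iff_eq hp Nat.prime_two).mp (hp.dvd_of_dvd_pow h))
      · exact h3 ((Nat.prime_dvd_prime_iff_eq hp Nat.prime_three).mp (hp.dvd_of_dvd_pow h))
    · exact hpM h
  refine ⟨W', hΔ', ?_, irreducible_three_of_no_int_root W' hΔ' hnoroot, ?_⟩
  · -- semistability
    intro p hp hpΔ' hpc4'
    by_cases hpM : (p : ℤ) ∣ M
    · have hr := hred p hpM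
      exact hW p hp ((dvd_Δ_iff_of_reductionMod_eq W W' p hr).mp hpΔ')
        ((dvd_c₄_iff_of_reductionMod_eq W W' p hr).mp hpc4')
    · obtain ⟨h2, h3, h5, hΔp, hNp⟩ := hprime p hp hpM
      have hp' : Prime (p : ℤ) := Nat.prime_iff_prime_int.mp hp
      have hpc6' : (p : ℤ) ∣ W'.c₆ := by
        have hrel := W'.c_relation
        have : (p : ℤ) ∣ W'.c₆ ^ 2 := by
          have e : W'.c₆ ^ 2 = W'.c₄ ^ 3 - 1728 * W'.Δ := by linarith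
          rw [e]
          exact dvd_sub (dvd_pow hpc4' (by norm_num)) (Dvd.dvd.mul_left hpΔ' _)
        exact hp'.dvd_of_dvd_pow this
      have hdiscp : ¬ (p : ℤ) ∣ W.c₄ ^ 3 - W.c₆ ^ 2 :=
        fun h => hΔp ((prime_dvd_disc_iff W p hp h2 h3).mp h)
      exact B.ss W.c₄ W.c₆ k N p hp h2 h3 h5 hdiscp hNp (hc4' ▸ hpc4') (hc6' ▸ hpc6')
  · -- the congruence
    intro ℓ hℓ hgW hgW' _
    by_cases hℓM : (ℓ : ℤ) ∣ M
    · rw [apOfModel_eq_of_reductionMod_eq W W' ℓ (hred ℓ hℓM)]; simp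
    · obtain ⟨h2, h3, h5, -, -⟩ := hprime ℓ hℓ hℓM
      have : Fact ℓ.Prime := ⟨hℓ⟩
      have hg1 : ¬ (ℓ : ℤ) ∣ W.c₄ ^ 3 - W.c₆ ^ 2 :=
        fun h => hgW ((prime_dvd_disc_iff W ℓ hℓ h2 h3).mp h)
      have hg2 : ¬ (ℓ : ℤ) ∣ (C4h W.c₄ W.c₆ k N) ^ 3 - (C6h W.c₄ W.c₆ k N) ^ 2 := by
        rw [← hc4', ← hc6']
        exact fun h => hgW' ((prime_dvd_disc_iff W' ℓ hℓ h2 h3).mp h)
      obtain ⟨e, he⟩ := B.cong W.c₄ W.c₆ k N ℓ h2 h3 h5 hg1 hg2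
      rw [apOfModel_eq_short ℓ W' h2 h3, apOfModel_eq_short ℓ W h2 h3, hc4', hc6']
      exact ⟨-e, by linarith⟩

end Fermat.Agent.S52.Glue
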